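/-
Lib/EtaUnit (architect helper213).  Definitions for `G₉ = b = η(τ)³ / η(3τ)`: weight one on `Γ₀(9)`,
character `χ₋₃`, no zeros on `ℍ`; on `Γ₀(3)` it has the character `χ₋₃(d) ω^(-(c/3) d)`.
-/
import Fermat.Agent.Lib.EtaUnit.Eta.Quot

set_option autoImplicit false

namespace Fermat.Agent.Lib.EtaUnit

open UpperHalfPlane
open scoped Real

local notation "η" => ModularForm.eta

/-- `b(z) = η(z)³ / η(3z)`. -/
noncomputable def Bc (z : ℂ) : ℂ := η z ^ 3 / η (3 * z)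

/-- `c(z) = η(3z)³ / η(z)`. -/
noncomputable def Cc (z : ℂ) : ℂ := η (3 * z) ^ 3 / η z

/-- `G₉ = b` on the upper half plane. -/
noncomputable def G9 (τ : ℍ) : ℂ := Bc τ

/-- `ω = exp (2 π i / 3)`. -/
noncomputable def omega : ℂ := Complex.exp (2 * π * Complex.I / 3)

/-- The character `χ₋₃` on `ℤ`. -/
def chi3 (d : ℤ) : ℤ := haveI : Fact (Nat.Prime 3) := ⟨Nat.prime_three⟩; legendreSym 3 d

/-- The exponents of `G₉` as an eta quotient indexed by `{1, 3} ⊆ ℕ`. -/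
def r9 (i : ℕ) : ℤ := if i = 1 then 3 else -1

end Fermat.Agent.Lib.EtaUnit
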