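/-
Lib/EtaUnit (architect helper213).  TASK EU-26.
Statements are frozen interfaces.  Proofs by helper69.
-/
import Fermat.Agent.Lib.EtaUnit.G9.Defs

set_option autoImplicit false

namespace Fermat.Agent.Lib.EtaUnit

open CongruenceSubgroup
open scoped MatrixGroups

theorem chi3_one : chi3 1 = 1 := by
  unfold chi3
  exact legendreSym.at_one 3

theorem chi3_neg_one : chi3 (-1) = -1 := by
  unfold chi3
  rw [legendreSym.at_neg_one (by norm_num)]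
  decide

theorem chi3_mul (m n : ℤ) : chi3 (m * n) = chi3 m * chi3 n := by
  unfold chi3
  exact legendreSym.mul 3 m n

theorem chi3_per3 (m n : ℤ) (h : (3 : ℤ) ∣ m - n) : chi3 m = chi3 n := by
  unfold chi3 legendreSym
  have : ((m : ℤ) : ZMod 3) = ((n : ℤ) : ZMod 3) := by
    rw [eq_comm, ZMod.intCast_eq_intCast_iff_dvd_sub]
    exact_mod_cast h
  rw [this]

theorem chi3_per (m n : ℤ) (h : ((9 : ℕ) : ℤ) ∣ m - n) : chi3 m = chi3 n :=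
  chi3_per3 m n (Dvd.dvd.trans (by norm_num) h)

theorem chi3_mul_self_of_not_dvd (m : ℤ) (h : ¬ (3 : ℤ) ∣ m) : chi3 m * chi3 m = 1 := by
  unfold chi3
  rw [← sq]
  apply legendreSym.sq_one
  intro h0
  rw [ZMod.intCast_zmod_eq_zero_iff_dvd] at h0
  exact h (by exact_mod_cast h0)

theorem chi3_sq (m : ℤ) (h : IsCoprime m ((9 : ℕ) : ℤ)) : chi3 m * chi3 m = 1 := by
  apply chi3_mul_self_of_not_dvd
  intro h3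
  have h1 : IsUnit (3 : ℤ) := h.isUnit_of_dvd' h3 (by norm_num)
  rw [Int.isUnit_iff] at h1
  omega

theorem omega_pow_three : omega ^ 3 = 1 := by
  unfold omega
  rw [← Complex.exp_nat_mul]
  have : ((3 : ℕ) : ℂ) * (2 * Real.pi * Complex.I / 3) = 2 * Real.pi * Complex.I := by
    push_cast
    ring
  rw [this, Complex.exp_two_pi_mul_I]

theorem omega_ne_zero : omega ≠ 0 := Complex.exp_ne_zero _

theorem omega_zpow_congr (m n : ℤ) (h : (3 : ℤ) ∣ m - n) : omega ^ m = omega ^ n := by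
  obtain ⟨k, hk⟩ := h
  have : m = n + 3 * k := by linarith
  rw [this, zpow_add₀ omega_ne_zero, zpow_mul]
  have h3 : omega ^ (3 : ℤ) = 1 := by exact_mod_cast omega_pow_three
  rw [h3, one_zpow, mul_one]

theorem three_dvd_of_mem_Gamma0 (γ : Gamma0 3) : (3 : ℤ) ∣ (γ : SL(2, ℤ)) 1 0 := by
  have h := γ.2
  rw [Gamma0_mem, ZMod.intCast_zmod_eq_zero_iff_dvd] at h
  exact_mod_cast h

theorem det_eq_of_SL (γ : SL(2, ℤ)) : γ 0 0 * γ 1 1 - γ 0 1 * γ 1 0 = 1 := by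
  have := γ.2
  rwa [Matrix.det_fin_two] at this

theorem not_three_dvd_of_mem_Gamma0 (γ : Gamma0 3) : ¬ (3 : ℤ) ∣ (γ : SL(2, ℤ)) 1 1 := by
  intro h
  obtain ⟨k, hk⟩ := h
  obtain ⟨l, hl⟩ := three_dvd_of_mem_Gamma0 γ
  have hdet := det_eq_of_SL (γ : SL(2, ℤ))
  rw [hk, hl] at hdet
  have : (3 : ℤ) ∣ 1 := ⟨(γ : SL(2, ℤ)) 0 0 * k - (γ : SL(2, ℤ)) 0 1 * l, by linear_combination -hdet⟩
  omega

/-- the congruence behind `exists_psiB`. -/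
theorem psiB_congr (a₁ b₁ c₁ d₁ a₂ b₂ c₂ d₂ : ℤ) (h₁ : a₁ * d₁ - b₁ * (3 * c₁) = 1)
    (h₂ : a₂ * d₂ - b₂ * (3 * c₂) = 1) :
    (3 : ℤ) ∣ (c₁ * a₂ + d₁ * c₂) * (3 * c₁ * b₂ + d₁ * d₂) - (c₁ * d₁ + c₂ * d₂) := by
  have key : ∀ a d : ZMod 3, a * d = 1 → d * d = 1 := by decide
  have h3 : (3 : ZMod 3) = 0 := by decide
  have e₁ : (a₁ : ZMod 3) * d₁ = 1 := by
    have := congrArg (Int.cast : ℤ → ZMod 3) h₁
    push_cast at this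
    linear_combination this + (b₁ : ZMod 3) * c₁ * h3
  have e₂ : (a₂ : ZMod 3) * d₂ = 1 := by
    have := congrArg (Int.cast : ℤ → ZMod 3) h₂
    push_cast at this
    linear_combination this + (b₂ : ZMod 3) * c₂ * h3
  have e₃ := key _ _ e₁
  have : (((c₁ * a₂ + d₁ * c₂) * (3 * c₁ * b₂ + d₁ * d₂) - (c₁ * d₁ + c₂ * d₂) : ℤ) : ZMod 3)
      = 0 := by
    push_cast
    linear_combination (c₁ : ZMod 3) * d₁ * e₂ + (c₂ : ZMod 3) * d₂ * e₃ +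
      ((c₁ : ZMod 3) * a₂ + d₁ * c₂) * c₁ * b₂ * h3
  rw [ZMod.intCast_zmod_eq_zero_iff_dvd] at this
  exact_mod_cast this

/-- `γ ↦ χ₋₃(d) ω^(-(c/3) d)` is a character of `Γ₀(3)`.
(`ω^n` depends on `n mod 3`.  With `c = c₁ a₂ + d₁ c₂`, `d = c₁ b₂ + d₁ d₂ ≡ d₁ d₂ mod 3`:
`(c/3) d ≡ (c₁/3) d₁ (a₂ d₂) + d₁² (c₂/3) d₂ ≡ (c₁/3) d₁ + (c₂/3) d₂ mod 3`, because
`a₂ d₂ ≡ 1` and `d₁² ≡ 1 mod 3`.) -/
theorem exists_psiB : ∃ ψ : Gamma0 3 →* ℂˣ, ∀ γ : Gamma0 3,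
    ((ψ γ : ℂˣ) : ℂ) = (chi3 ((γ : SL(2, ℤ)) 1 1) : ℂ) *
      omega ^ (-((γ : SL(2, ℤ)) 1 0 / 3 * (γ : SL(2, ℤ)) 1 1)) := by
  have hne : ∀ γ : Gamma0 3, (chi3 ((γ : SL(2, ℤ)) 1 1) : ℂ) *
      omega ^ (-((γ : SL(2, ℤ)) 1 0 / 3 * (γ : SL(2, ℤ)) 1 1)) ≠ 0 := by
    intro γ
    refine mul_ne_zero ?_ (zpow_ne_zero _ omega_ne_zero)
    intro h0
    have h1 := chi3_mul_self_of_not_dvd _ (not_three_dvd_of_mem_Gamma0 γ)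
    have h0' : chi3 ((γ : SL(2, ℤ)) 1 1) = 0 := by exact_mod_cast h0
    rw [h0'] at h1
    simp at h1
  refine ⟨MonoidHom.mk' (fun γ => Units.mk0 _ (hne γ)) ?_, fun γ => rfl⟩
  intro γ₁ γ₂
  apply Units.ext
  rw [Units.val_mul, Units.val_mk0, Units.val_mk0, Units.val_mk0]
  obtain ⟨c₁, hc₁⟩ := three_dvd_of_mem_Gamma0 γ₁
  obtain ⟨c₂, hc₂⟩ := three_dvd_of_mem_Gamma0 γ₂
  have hdet₁ := det_eq_of_SL (γ₁ : SL(2, ℤ))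
  have hdet₂ := det_eq_of_SL (γ₂ : SL(2, ℤ))
  have e10 : ((γ₁ * γ₂ : Gamma0 3) : SL(2, ℤ)) 1 0 =
      (γ₁ : SL(2, ℤ)) 1 0 * (γ₂ : SL(2, ℤ)) 0 0 + (γ₁ : SL(2, ℤ)) 1 1 * (γ₂ : SL(2, ℤ)) 1 0 := by
    rw [Subgroup.coe_mul, Matrix.SpecialLinearGroup.coe_mul, Matrix.mul_apply, Fin.sum_univ_two]
  have e11 : ((γ₁ * γ₂ : Gamma0 3) : SL(2, ℤ)) 1 1 =
      (γ₁ : SL(2, ℤ)) 1 0 * (γ₂ : SL(2, ℤ)) 0 1 + (γ₁ : SL(2, ℤ)) 1 1 * (γ₂ : SL(2, ℤ)) 1 1 := by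
    rw [Subgroup.coe_mul, Matrix.SpecialLinearGroup.coe_mul, Matrix.mul_apply, Fin.sum_univ_two]
  rw [e10, e11, hc₁, hc₂]
  rw [hc₁] at hdet₁
  rw [hc₂] at hdet₂
  set a₁ := (γ₁ : SL(2, ℤ)) 0 0
  set b₁ := (γ₁ : SL(2, ℤ)) 0 1
  set d₁ := (γ₁ : SL(2, ℤ)) 1 1
  set a₂ := (γ₂ : SL(2, ℤ)) 0 0
  set b₂ := (γ₂ : SL(2, ℤ)) 0 1
  set d₂ := (γ₂ : SL(2, ℤ)) 1 1
  have q1 : 3 * c₁ / 3 = c₁ := by omega
  have q2 : 3 * c₂ / 3 = c₂ := by omega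
  have q3 : (3 * c₁ * a₂ + d₁ * (3 * c₂)) / 3 = c₁ * a₂ + d₁ * c₂ := by
    have : 3 * c₁ * a₂ + d₁ * (3 * c₂) = 3 * (c₁ * a₂ + d₁ * c₂) := by ring
    rw [this]
    omega
  rw [q1, q2, q3]
  have hchi : chi3 (3 * c₁ * b₂ + d₁ * d₂) = chi3 d₁ * chi3 d₂ := by
    rw [← chi3_mul]
    exact chi3_per3 _ _ ⟨c₁ * b₂, by ring⟩
  have hom : omega ^ (-((c₁ * a₂ + d₁ * c₂) * (3 * c₁ * b₂ + d₁ * d₂))) =
      omega ^ (-(c₁ * d₁)) * omega ^ (-(c₂ * d₂)) := by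
    rw [← zpow_add₀ omega_ne_zero]
    apply omega_zpow_congr
    have := psiB_congr a₁ b₁ c₁ d₁ a₂ b₂ c₂ d₂ hdet₁ hdet₂
    have h2 := (dvd_neg (a := (3 : ℤ))).2 this
    have h3 : -((c₁ * a₂ + d₁ * c₂) * (3 * c₁ * b₂ + d₁ * d₂)) - (-(c₁ * d₁) + -(c₂ * d₂)) =
        -((c₁ * a₂ + d₁ * c₂) * (3 * c₁ * b₂ + d₁ * d₂) - (c₁ * d₁ + c₂ * d₂)) := by ring
    rw [h3]
    exact h2
  rw [hchi, hom]
  push_cast
  ring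

end Fermat.Agent.Lib.EtaUnit
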