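/-
Lib/EtaUnit (architect helper213).  TASK EU-25.  Proofs: helper61.
-/
import Fermat.Agent.Lib.EtaUnit.G9.Defs

set_option autoImplicit false

namespace Fermat.Agent.Lib.EtaUnit

open UpperHalfPlane
open scoped Real

local notation "η" => ModularForm.eta

theorem g9_eta_three_mul_add_one (z : ℂ) :
    η (3 * (z + 1)) = Complex.exp (2 * π * Complex.I / 24) ^ 3 * η (3 * z) := by
  rw [show 3 * (z + 1) = 3 * z + 1 + 1 + 1 by ring, eta_add_one, eta_add_one, eta_add_one]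
  ring

theorem Bc_add_one (z : ℂ) : Bc (z + 1) = Bc z := by
  unfold Bc
  rw [eta_add_one, g9_eta_three_mul_add_one, mul_pow,
    mul_div_mul_left _ _ (pow_ne_zero 3 (Complex.exp_ne_zero _))]

theorem Cc_add_one (z : ℂ) : Cc (z + 1) = omega * Cc z := by
  unfold Cc
  rw [eta_add_one, g9_eta_three_mul_add_one]
  have h8 : omega = Complex.exp (2 * π * Complex.I / 24) ^ 8 := by
    rw [omega, ← Complex.exp_nat_mul]
    congr 1
    push_cast
    ring
  rw [h8]
  have h1 : (Complex.exp (2 * π * Complex.I / 24) ^ 3 * η (3 * z)) ^ 3 =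
      Complex.exp (2 * π * Complex.I / 24) *
        (Complex.exp (2 * π * Complex.I / 24) ^ 8 * η (3 * z) ^ 3) := by ring
  rw [h1, mul_div_mul_left _ _ (Complex.exp_ne_zero _), mul_div_assoc]

theorem g9_im_neg_one_div_pos {w : ℂ} (hw : 0 < w.im) : 0 < (-1 / w).im := by
  have hw0 : w ≠ 0 := by
    rintro rfl
    simp at hw
  rw [neg_div, one_div, Complex.neg_im, Complex.inv_im, neg_div, neg_neg]
  exact div_pos hw (Complex.normSq_pos.mpr hw0)

theorem g9_im_three_mul_pos {z : ℂ} (hz : 0 < z.im) : 0 < (3 * z).im := by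
  have : (3 * z).im = 3 * z.im := by simp
  rw [this]
  linarith

theorem g9_sqrt_three_sq : ((Real.sqrt 3 : ℝ) : ℂ) ^ 2 = 3 := by
  rw [← Complex.ofReal_pow, Real.sq_sqrt (by norm_num)]
  norm_num

theorem g9_sqrt_three_ne_zero : ((Real.sqrt 3 : ℝ) : ℂ) ≠ 0 := by
  intro h
  have := g9_sqrt_three_sq
  rw [h] at this
  norm_num at this

theorem g9_eta_neg_inv_mul_three (z : ℂ) (hz : 0 < z.im) :
    η (-1 / (3 * z)) * η (-1 / z) =
      (Real.sqrt 3 : ℂ) * (-Complex.I * z) * (η (3 * z) * η z) := by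
  have h := eta_neg_inv_mul 3 (by norm_num) z hz
  simpa using h

/-- (`b = η(z)⁴ / (η(z) η(3z))`; `eta_sq_neg_inv` at `3 z`, `eta_neg_inv_mul 3`.) -/
theorem Bc_fricke (z : ℂ) (hz : 0 < z.im) :
    Bc (-1 / (3 * z)) = -3 * (Real.sqrt 3 : ℂ) * Complex.I * z * Cc z := by
  have hz0 : z ≠ 0 := by
    rintro rfl
    simp at hz
  have h3z := g9_im_three_mul_pos hz
  have ha : η (-1 / (3 * z)) ≠ 0 := ModularForm.eta_ne_zero (g9_im_neg_one_div_pos h3z)
  have hb : η (-1 / z) ≠ 0 := ModularForm.eta_ne_zero (g9_im_neg_one_div_pos hz)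
  have hB : η z ≠ 0 := ModularForm.eta_ne_zero hz
  have h1 := eta_sq_neg_inv (3 * z) h3z
  have h2 := g9_eta_neg_inv_mul_three z hz
  have hs := g9_sqrt_three_sq
  unfold Bc Cc
  rw [show 3 * (-1 / (3 * z)) = -1 / z by field_simp, ← mul_div_assoc, div_eq_div_iff hb hB]
  apply mul_left_cancel₀ ha
  linear_combination ((η (-1 / (3 * z)) ^ 2 + -Complex.I * (3 * z) * η (3 * z) ^ 2) * η z) * h1 +
    (3 * (Real.sqrt 3 : ℂ) * Complex.I * z * η (3 * z) ^ 3) * h2 +
    (-3 * Complex.I ^ 2 * z ^ 2 * η (3 * z) ^ 4 * η z) * hs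

/-- (`c(-1/(3z)) = η(-1/z)⁴ / (η(-1/z) η(-1/(3z)))`; `eta_sq_neg_inv` at `z`, `eta_neg_inv_mul 3`.) -/
theorem Cc_fricke (z : ℂ) (hz : 0 < z.im) :
    Cc (-1 / (3 * z)) = -Complex.I * z / (Real.sqrt 3 : ℂ) * Bc z := by
  have hz0 : z ≠ 0 := by
    rintro rfl
    simp at hz
  have h3z := g9_im_three_mul_pos hz
  have ha : η (-1 / (3 * z)) ≠ 0 := ModularForm.eta_ne_zero (g9_im_neg_one_div_pos h3z)
  have hb : η (-1 / z) ≠ 0 := ModularForm.eta_ne_zero (g9_im_neg_one_div_pos hz)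
  have hA : η (3 * z) ≠ 0 := ModularForm.eta_ne_zero h3z
  have h3 := eta_sq_neg_inv z hz
  have h2 := g9_eta_neg_inv_mul_three z hz
  have hs0 := g9_sqrt_three_ne_zero
  unfold Bc Cc
  rw [show 3 * (-1 / (3 * z)) = -1 / z by field_simp, div_mul_div_comm,
    div_eq_div_iff ha (mul_ne_zero hs0 hA)]
  apply mul_left_cancel₀ hb
  linear_combination ((η (-1 / z) ^ 2 + -Complex.I * z * η z ^ 2) * (Real.sqrt 3 : ℂ) *
    η (3 * z)) * h3 + (Complex.I * z * η z ^ 3) * h2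

/-- (`z / (3 z + 1) = -1 / (3 z')` with `z' = -1 / (3 z) - 1`; `Bc_fricke` at `z'`, `Cc_add_one`,
`Cc_fricke` at `z`.) -/
theorem Bc_U (z : ℂ) (hz : 0 < z.im) : Bc (z / (3 * z + 1)) = omega⁻¹ * (3 * z + 1) * Bc z := by
  have hz0 : z ≠ 0 := by
    rintro rfl
    simp at hz
  have h3z := g9_im_three_mul_pos hz
  have h31 : 3 * z + 1 ≠ 0 := by
    intro h
    have := congrArg Complex.im h
    simp at this
    linarith
  have hz' : 0 < (-1 / (3 * z) - 1).im := by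
    have := g9_im_neg_one_div_pos h3z
    simpa using this
  have hω : omega ≠ 0 := Complex.exp_ne_zero _
  have hs0 := g9_sqrt_three_ne_zero
  have e1 : z / (3 * z + 1) = -1 / (3 * (-1 / (3 * z) - 1)) := by
    have h4 : 3 * (-1 / (3 * z) - 1) = -(3 * z + 1) / z := by
      field_simp
      ring
    rw [h4]
    field_simp
  have e2 : Cc (-1 / (3 * z) - 1) = omega⁻¹ * Cc (-1 / (3 * z)) := by
    have h5 := Cc_add_one (-1 / (3 * z) - 1)
    rw [sub_add_cancel] at h5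
    rw [h5, inv_mul_cancel_left₀ hω]
  rw [e1, Bc_fricke _ hz', e2, Cc_fricke z hz]
  field_simp
  linear_combination (-(3 * z + 1) * Bc z) * Complex.I_sq
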