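/-
Lib/EtaUnit (architect helper213).  TASK EU-27.  Proved by helper184.
-/
import Fermat.Agent.Lib.EtaUnit.G9.Fricke
import Fermat.Agent.Lib.EtaUnit.G9.Chi
import Fermat.Agent.Lib.EtaUnit.Aut
import Fermat.Agent.Lib.EtaUnit.Eta.QuotExp
import Fermat.Agent.Lib.EtaUnit.Eta.QuotCusp

set_option autoImplicit false

namespace Fermat.Agent.Lib.EtaUnit

open UpperHalfPlane CongruenceSubgroup
open scoped MatrixGroups Manifold

theorem G9_eq_etaQuot : G9 = etaQuot ({1, 3} : Finset ℕ) (fun i => i) r9 := by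
  funext τ
  have h13 : (1 : ℕ) ≠ 3 := by norm_num
  rw [etaQuot, Finset.prod_pair h13]
  simp only [G9, Bc, r9, if_true, Nat.cast_one, one_mul, Nat.cast_ofNat]
  norm_num [div_eq_mul_inv, zpow_neg]

theorem G9_hD : ∀ i ∈ ({1, 3} : Finset ℕ), 0 < (fun i : ℕ => i) i := by
  intro i hi
  simp only [Finset.mem_insert, Finset.mem_singleton] at hi
  rcases hi with rfl | rfl <;> norm_num

theorem G9_coe_Umat_smul (τ : ℍ) : ((Umat (3 : ℕ) • τ : ℍ) : ℂ) = (τ : ℂ) / (3 * τ + 1) := by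
  rw [UpperHalfPlane.specialLinearGroup_apply]
  simp [Umat]

theorem G9_denom_Umat (τ : ℍ) : denom (Umat (3 : ℕ)) τ = 3 * (τ : ℂ) + 1 := by
  simp [UpperHalfPlane.denom, Umat]

/-- (`aut_of_generators 3` with `k = 1`, `ψ` from `exists_psiB`; `Bc_add_one`, `Bc_U`.) -/
theorem G9_aut3 (γ : SL(2, ℤ)) (hγ : γ ∈ Gamma0 3) (τ : ℍ) :
    G9 (γ • τ) = (chi3 (γ 1 1) : ℂ) * omega ^ (-(γ 1 0 / 3 * γ 1 1)) * denom γ τ * G9 τ := by
  obtain ⟨ψ, hψ⟩ := exists_psiB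
  have key := aut_of_generators 3 (by norm_num) (by norm_num) G9 1 ψ
    (fun τ => by
      rw [hψ]
      have h1 : ((ModularGroup.T • τ : ℍ) : ℂ) = (τ : ℂ) + 1 := by
        rw [UpperHalfPlane.modular_T_smul, UpperHalfPlane.coe_vadd]
        push_cast
        ring
      simp only [G9, h1, Bc_add_one]
      simp [ModularGroup.T, chi3_one])
    (by
      rw [hψ]
      simp [chi3_neg_one])
    (fun τ => by
      rw [hψ]
      simp only [G9, G9_coe_Umat_smul, G9_denom_Umat, Bc_U (τ : ℂ) τ.2]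
      simp [Umat, chi3_one, zpow_neg])
    ⟨γ, hγ⟩ τ
  rw [hψ, zpow_one] at key
  exact key

/-- (`9 ∣ c` gives `3 ∣ c / 3`, so the power of `ω` is `1`.) -/
theorem G9_aut (γ : SL(2, ℤ)) (hγ : γ ∈ Gamma0 9) (τ : ℍ) :
    G9 (γ • τ) = (chi3 (γ 1 1) : ℂ) * denom γ τ * G9 τ := by
  have h9 : (9 : ℤ) ∣ γ 1 0 := by
    have := (Gamma0_mem).1 hγ
    exact (ZMod.intCast_zmod_eq_zero_iff_dvd (γ 1 0) 9).1 this
  obtain ⟨m, hm⟩ := h9
  have h3 : γ ∈ Gamma0 3 := by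
    rw [Gamma0_mem, hm]
    have : ((9 * m : ℤ) : ZMod 3) = 0 := by
      rw [ZMod.intCast_zmod_eq_zero_iff_dvd]
      exact ⟨3 * m, by push_cast; ring⟩
    exact this
  rw [G9_aut3 γ h3 τ]
  have hdiv : γ 1 0 / 3 = 3 * m := by
    rw [hm]
    omega
  have hω : omega ^ (-(γ 1 0 / 3 * γ 1 1)) = 1 := by
    rw [hdiv, show -(3 * m * γ 1 1) = (3 : ℤ) * (-(m * γ 1 1)) by ring, zpow_mul]
    have : omega ^ (3 : ℤ) = 1 := by exact_mod_cast omega_pow_three
    rw [this, one_zpow]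
  rw [hω, mul_one]

theorem exists_isW1_G9 : ∃ Gs : PowerSeries ℤ, IsW1 9 chi3 G9 Gs := by
  have h13 : (1 : ℕ) ≠ 3 := by norm_num
  obtain ⟨P, hP1, hP⟩ := exists_exp_etaQuot (s := ({1, 3} : Finset ℕ)) (D := fun i => i) r9 G9_hD 0
    (by
      rw [Finset.sum_pair h13]
      simp [r9])
  refine ⟨P, ?_⟩
  refine
    { mdiff := by rw [G9_eq_etaQuot]; exact mdiff_etaQuot r9 G9_hD
      ne_zero := fun τ => by rw [G9_eq_etaQuot]; exact etaQuot_ne_zero r9 G9_hD τ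
      aut := G9_aut
      chi_one := chi3_one
      chi_mul := chi3_mul
      chi_per := chi3_per
      chi_sq := chi3_sq
      const := hP1
      exp := ?_
      cusp := fun γ => ?_ }
  · rw [G9_eq_etaQuot]
    have : (HahnSeries.single ((0 : ℕ) : ℤ) (1 : Fermat.Agent.S24.Kbar)) = 1 := by
      simp
    rw [this, one_mul] at hP
    exact hP
  · obtain ⟨M, hM, s', hs'⟩ := exists_cusp_etaQuot (s := ({1, 3} : Finset ℕ)) (D := fun i => i) r9
      G9_hD 1 (by rw [Finset.sum_pair h13]; simp [r9]) γ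
    refine ⟨M, hM, s', ?_⟩
    rw [G9_eq_etaQuot]
    simpa only [zpow_neg_one, ← div_eq_mul_inv] using hs'

/-- The `q`-expansion of `G₉`. -/
noncomputable def G9s : PowerSeries ℤ := exists_isW1_G9.choose

theorem isW1_G9 : IsW1 9 chi3 G9 G9s := exists_isW1_G9.choose_spec

end Fermat.Agent.Lib.EtaUnit
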